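import Fermat.Agent.StableManifold.Forward
import Fermat.Agent.HartmanGrobman.Toral

/-!
# Shadowing and expansiveness of hyperbolic toral automorphisms

The errors of a pseudo-orbit lift to small vectors, and the series solution on `ℤ` corrects it to
an orbit; the same solution being unique, two orbits that stay close agree.
-/

set_option autoImplicit false

noncomputable section

namespace FA.StableManifold

open FA.ToralEntropy FA.ToralPeriodic FA.HartmanGrobman
open scoped BoundedContinuousFunction NNReal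

variable {ι : Type*} [Fintype ι]

/-- A shortest lift. -/
theorem exists_short_lift (z : ι → UnitAddCircle) : ∃ w : ι → ℝ, proj w = z ∧ ‖w‖ ≤ ‖z‖ := by
  choose r hr using fun i => QuotientAddGroup.mk_surjective (z i)
  refine ⟨fun i => r i - round (r i), funext fun i => ?_,
    (pi_norm_le_iff_of_nonneg (norm_nonneg z)).2 fun i => ?_⟩
  · show ((r i - round (r i) : ℝ) : UnitAddCircle) = z i
    rw [AddCircle.coe_sub, show ((round (r i) : ℝ) : UnitAddCircle) = 0 from
      (AddCircle.coe_eq_zero_iff 1).2 ⟨round (r i), by simp⟩, sub_zero]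
    exact hr i
  · refine le_trans ?_ (norm_le_pi_norm z i)
    rw [Real.norm_eq_abs, ← hr i]
    exact UnitAddCircle.norm_eq.ge

omit [Fintype ι] in
theorem proj_sub (u v : ι → ℝ) : proj (u - v) = proj u - proj v := rfl

variable [DecidableEq ι] {A : Matrix ι ι ℤ} (hA : IsUnit A.det)

theorem proj_matrixEquiv (w : ι → ℝ) :
    proj (matrixEquiv (A.map (Int.cast : ℤ → ℝ)) (isUnit_det_cast hA) w) = toral A (proj w) :=
  (toral_proj A w).symm

/-- **Expansiveness.** -/
theorem toral_expansive
    (S : Splitting (matrixEquiv (A.map (Int.cast : ℤ → ℝ)) (isUnit_det_cast hA)))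
    {y y' : ℤ → ι → UnitAddCircle} (hy : ∀ n, y (n + 1) = toral A (y n))
    (hy' : ∀ n, y' (n + 1) = toral A (y' n)) {c : ℝ} (hc0 : 0 ≤ c)
    (hc : stepBound A * c + c < 1) (hclose : ∀ n, ‖y n - y' n‖ ≤ c) : y = y' := by
  choose w hw hwn using fun n => exists_short_lift (y n - y' n)
  set u : ℤ →ᵇ (ι → ℝ) := BoundedContinuousFunction.ofNormedAddCommGroup w
    continuous_of_discreteTopology c fun n => (hwn n).trans (hclose n)
  have hu : u = 0 := S.eq_zero shift u fun n => by
    show w (n + 1) = matrixEquiv _ _ (w n)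
    have h0 : proj (matrixEquiv _ (isUnit_det_cast hA) (w n) - w (n + 1)) = 0 := by
      rw [proj_sub, proj_matrixEquiv hA, hw, hw, hy, hy', ← toral_sub, sub_self]
    obtain ⟨m, hm⟩ := (proj_eq_zero_iff _).1 h0
    refine funext fun i => ?_
    have hmi := congrFun hm i
    rw [Pi.sub_apply] at hmi
    have hb : ∀ k j, |w k j| ≤ c := fun k j =>
      (norm_le_pi_norm (w k) j).trans ((hwn k).trans (hclose k))
    have h1 : |(m i : ℝ)| < 1 := by
      rw [← hmi]
      refine lt_of_le_of_lt (abs_sub _ _) (lt_of_le_of_lt (add_le_add ?_ (hb _ i)) hc)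
      exact abs_realMap_le A hc0 (hb n) i
    have h2 : m i = 0 := Int.abs_lt_one_iff.1 (by exact_mod_cast h1)
    rw [h2, Int.cast_zero, sub_eq_zero] at hmi
    exact hmi.symm
  funext n
  have h : proj (w n) = 0 := by
    rw [show w n = 0 from DFunLike.congr_fun hu n]
    exact proj_zero
  rwa [hw, sub_eq_zero] at h

/-- **The shadowing lemma.** -/
theorem toral_shadow
    (S : Splitting (matrixEquiv (A.map (Int.cast : ℤ → ℝ)) (isUnit_det_cast hA)))
    (x : ℤ → ι → UnitAddCircle) {δ : ℝ} (hx : ∀ n, ‖x (n + 1) - toral A (x n)‖ ≤ δ) :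
    ∃ y : ℤ → ι → UnitAddCircle, (∀ n, y (n + 1) = toral A (y n)) ∧
      ∀ n, ‖y n - x n‖ ≤ S.bound * δ := by
  have hδ : 0 ≤ δ := (norm_nonneg _).trans (hx 0)
  choose e he hen using fun n => exists_short_lift (toral A (x n) - x (n + 1))
  set a : ℤ →ᵇ (ι → ℝ) := BoundedContinuousFunction.ofNormedAddCommGroup e
    continuous_of_discreteTopology δ fun n =>
      (hen n).trans (by rw [norm_sub_rev]; exact hx n)
  refine ⟨fun n => x n + proj (S.solve shift a n), fun n => ?_, fun n => ?_⟩
  · show x (n + 1) + proj (S.solve shift a (shift n)) = _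
    rw [S.solve_eq, proj_add, proj_matrixEquiv hA, toral_add,
      show proj (a n) = toral A (x n) - x (n + 1) from he n]
    abel
  · rw [add_sub_cancel_left]
    exact (norm_proj_le _).trans (((S.solve shift a).norm_coe_le_norm n).trans
      ((S.norm_solve_le _ a).trans (mul_le_mul_of_nonneg_left
        (BoundedContinuousFunction.norm_ofNormedAddCommGroup_le _ hδ _) S.bound_nonneg)))

include hA in
/-- **Anosov shadowing and closing.** -/
theorem toral_shadowing
    (hroots : ∀ z : ℂ, ‖z‖ = 1 → (A.map (Int.cast : ℤ → ℂ)).charpoly.eval z ≠ 0) :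
    ∃ K c : ℝ, 0 < c ∧
      (∀ y y' : ℤ → ι → UnitAddCircle, (∀ n, y (n + 1) = toral A (y n)) →
        (∀ n, y' (n + 1) = toral A (y' n)) → (∀ n, ‖y n - y' n‖ ≤ c) → y = y') ∧
      ∀ (x : ℤ → ι → UnitAddCircle) (δ : ℝ), (∀ n, ‖x (n + 1) - toral A (x n)‖ ≤ δ) →
        ∃ y : ℤ → ι → UnitAddCircle, (∀ n, y (n + 1) = toral A (y n)) ∧
          (∀ n, ‖y n - x n‖ ≤ K * δ) ∧
          (2 * (K * δ) ≤ c →
            (∀ y' : ℤ → ι → UnitAddCircle, (∀ n, y' (n + 1) = toral A (y' n)) →
              (∀ n, ‖y' n - x n‖ ≤ K * δ) → y' = y) ∧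
            ∀ q : ℕ, (∀ n, x (n + q) = x n) → (toral A)^[q] (y 0) = y 0) := by
  have hmap : (A.map (Int.cast : ℤ → ℝ)).map (algebraMap ℝ ℂ) = A.map (Int.cast : ℤ → ℂ) := by
    ext i j
    simp
  obtain ⟨S⟩ := exists_splitting (A.map (Int.cast : ℤ → ℝ)) (isUnit_det_cast hA)
    (by rw [hmap]; exact hroots)
  have hs : 0 ≤ stepBound A := by
    have := Finset.sum_nonneg fun i (_ : i ∈ Finset.univ) =>
      Finset.sum_nonneg fun j (_ : j ∈ Finset.univ) => abs_nonneg (A i j : ℝ)
    simp only [stepBound]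
    linarith
  set c := (stepBound A + 2)⁻¹
  have hc0 : 0 < c := by positivity
  have hc : stepBound A * c + c < 1 := by
    rw [← add_one_mul, mul_inv_lt_iff₀ (by positivity)]
    linarith
  refine ⟨S.bound, c, hc0, fun y y' hy hy' => toral_expansive hA S hy hy' hc0.le hc,
    fun x δ hx => ?_⟩
  obtain ⟨y, hy, hyx⟩ := toral_shadow hA S x hx
  refine ⟨y, hy, hyx, fun hsmall => ?_⟩
  have huniq : ∀ y' : ℤ → ι → UnitAddCircle, (∀ n, y' (n + 1) = toral A (y' n)) →
      (∀ n, ‖y' n - x n‖ ≤ S.bound * δ) → y' = y := fun y' hy' hy'x =>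
    toral_expansive hA S hy' hy hc0.le hc fun n => by
      have := norm_sub_le_norm_sub_add_norm_sub (y' n) (x n) (y n)
      rw [norm_sub_rev (x n)] at this
      linarith [hy'x n, hyx n]
  refine ⟨huniq, fun q hq => ?_⟩
  have hper : (fun n => y (n + q)) = y := huniq _
    (fun n => by rw [show n + 1 + (q : ℤ) = n + q + 1 by ring, hy])
    fun n => by
      have := hyx (n + q)
      rwa [hq] at this
  have hit : ∀ k : ℕ, (toral A)^[k] (y 0) = y k := fun k => by
    induction k with
    | zero => rfl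
    | succ k ih => rw [Function.iterate_succ_apply', ih, Nat.cast_succ, hy]
  rw [hit]
  have := congrFun hper 0
  rwa [zero_add] at this

end FA.StableManifold
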