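import Fermat.Agent.HartmanGrobman.Theorems

/-!
# Bounded forward orbits near a hyperbolic linear map

Extended by zero to the negative integers, a bounded sequence becomes an inhomogeneity on `ℤ`;
the series solution there, plus `L ^ n (P ξ)`, is the only bounded forward solution of
`u (n + 1) = L (u n) + a n` with `P (u 0) = P ξ`.  Rescaling `L` turns boundedness into decay.
-/

set_option autoImplicit false

noncomputable section

namespace FA.StableManifold

open FA.HartmanGrobman Filter Topology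
open scoped BoundedContinuousFunction NNReal

variable {E : Type*} [NormedAddCommGroup E] [NormedSpace ℝ E] {L : E ≃L[ℝ] E}

/-- The shift of the integers. -/
def shift : ℤ ≃ₜ ℤ := Homeomorph.addRight 1

/-- Extension by zero to the negative integers. -/
def extend (a : ℕ →ᵇ E) : ℤ →ᵇ E :=
  BoundedContinuousFunction.ofNormedAddCommGroup (fun n => if 0 ≤ n then a n.toNat else 0)
    continuous_of_discreteTopology ‖a‖ fun n => by
      split_ifs
      · exact a.norm_coe_le_norm _
      · simp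

omit [NormedSpace ℝ E] in
theorem norm_extend_le (a : ℕ →ᵇ E) : ‖extend a‖ ≤ ‖a‖ :=
  BoundedContinuousFunction.norm_ofNormedAddCommGroup_le _ (norm_nonneg a) _

omit [NormedSpace ℝ E] in
theorem extend_neg (a : ℕ →ᵇ E) (n : ℕ) : extend a (-((n : ℤ) + 1)) = 0 := by
  simp only [extend, BoundedContinuousFunction.coe_ofNormedAddCommGroup]
  exact if_neg (by omega)

theorem shift_symm_apply (k : ℤ) : shift.symm k = k - 1 := by
  apply shift.injective
  rw [Homeomorph.apply_symm_apply]
  exact (sub_add_cancel k 1).symm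

variable (S : Splitting L)

theorem comm_symm (y : E) : S.P (L.symm y) = L.symm (S.P y) := by
  apply L.injective
  rw [← S.comm, L.apply_symm_apply, L.apply_symm_apply]

theorem comm_symm_pow (n : ℕ) (y : E) :
    S.P (((L.symm : E →L[ℝ] E) ^ n) y) = ((L.symm : E →L[ℝ] E) ^ n) (S.P y) := by
  induction n generalizing y with
  | zero => rfl
  | succ n ih =>
    rw [pow_succ]
    exact (ih (L.symm y)).trans (congrArg _ (comm_symm S y))

theorem pow_pow_symm (n : ℕ) (y : E) :
    ((L : E →L[ℝ] E) ^ n) (((L.symm : E →L[ℝ] E) ^ n) y) = y := by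
  induction n generalizing y with
  | zero => rfl
  | succ n ih =>
    rw [pow_succ, pow_succ' (L.symm : E →L[ℝ] E)]
    exact (congrArg _ (L.apply_symm_apply _)).trans (ih y)

/-- The operator of a splitting is a projection. -/
theorem idem (x : E) : S.P (S.P x) = S.P x := by
  set Li : E →L[ℝ] E := (L.symm : E →L[ℝ] E)
  set z := S.P x - S.P (S.P x)
  have hz : z = S.P (x - S.P x) := (_root_.map_sub S.P _ _).symm
  have hle : ∀ n : ℕ, ‖z‖ ≤
      S.C * S.C * (‖(1 : E →L[ℝ] E) - S.P‖ + ‖S.P‖) * ‖x‖ * S.r ^ n := by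
    intro n
    have hrn : S.r ^ n ≤ 1 := pow_le_one₀ S.r_nonneg S.r_lt_one.le
    have hC : 0 ≤ S.C * S.r ^ n := mul_nonneg S.C_nonneg (pow_nonneg S.r_nonneg n)
    have b1 : ‖(L : E →L[ℝ] E) ^ n * S.P‖ ≤ S.C :=
      (S.forward n).trans (mul_le_of_le_one_right S.C_nonneg hrn)
    have b2 : ‖Li ^ n * (1 - S.P)‖ ≤ S.C :=
      (S.backward n).trans (mul_le_of_le_one_right S.C_nonneg hrn)
    have e1 : S.P z = ((L : E →L[ℝ] E) ^ n * S.P) (S.P ((Li ^ n * (1 - S.P)) x)) := by
      show _ = ((L : E →L[ℝ] E) ^ n) (S.P (S.P ((Li ^ n) (x - S.P x))))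
      rw [← S.comm_pow, ← S.comm_pow, pow_pow_symm, ← hz]
    have e2 : z - S.P z =
        (Li ^ n * (1 - S.P)) ((1 - S.P) (((L : E →L[ℝ] E) ^ n * S.P) x)) := by
      show _ = (Li ^ n) ((((L : E →L[ℝ] E) ^ n) (S.P x) - S.P (((L : E →L[ℝ] E) ^ n) (S.P x))) -
        S.P (((L : E →L[ℝ] E) ^ n) (S.P x) - S.P (((L : E →L[ℝ] E) ^ n) (S.P x))))
      rw [S.comm_pow, ← _root_.map_sub, S.comm_pow, ← _root_.map_sub, Splitting.pow_symm_pow]
    have n1 : ‖S.P z‖ ≤ S.C * S.r ^ n * (‖S.P‖ * (S.C * ‖x‖)) := by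
      rw [e1]
      exact (ContinuousLinearMap.le_opNorm _ _).trans (mul_le_mul (S.forward n)
        ((S.P.le_opNorm _).trans (mul_le_mul_of_nonneg_left
          ((ContinuousLinearMap.le_opNorm _ _).trans
          (mul_le_mul_of_nonneg_right b2 (norm_nonneg x))) (norm_nonneg _))) (norm_nonneg _) hC)
    have n2 : ‖z - S.P z‖ ≤ S.C * S.r ^ n * (‖(1 : E →L[ℝ] E) - S.P‖ * (S.C * ‖x‖)) := by
      rw [e2]
      exact (ContinuousLinearMap.le_opNorm _ _).trans (mul_le_mul (S.backward n)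
        ((ContinuousLinearMap.le_opNorm _ _).trans (mul_le_mul_of_nonneg_left
          ((ContinuousLinearMap.le_opNorm _ _).trans
            (mul_le_mul_of_nonneg_right b1 (norm_nonneg x)))
          (norm_nonneg _))) (norm_nonneg _) hC)
    have := norm_add_le (S.P z) (z - S.P z)
    rw [add_sub_cancel] at this
    linarith
  have h0 : z = 0 := norm_le_zero_iff.1 (ge_of_tendsto'
    (by simpa using (tendsto_pow_atTop_nhds_zero_of_lt_one S.r_nonneg S.r_lt_one).const_mul
          (S.C * S.C * (‖(1 : E →L[ℝ] E) - S.P‖ + ‖S.P‖) * ‖x‖)) hle)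
  exact (sub_eq_zero.1 h0).symm

variable [CompleteSpace E]

/-- The bounded forward solution. -/
def forwardSol (ξ : E) (a : ℕ →ᵇ E) : ℕ →ᵇ E :=
  BoundedContinuousFunction.ofNormedAddCommGroup
    (fun n => ((L : E →L[ℝ] E) ^ n * S.P) ξ + S.solve shift (extend a) (n : ℤ))
    continuous_of_discreteTopology (S.C * ‖ξ‖ + S.bound * ‖a‖) fun n => by
      refine (norm_add_le _ _).trans (add_le_add ?_ ?_)
      · exact (ContinuousLinearMap.le_opNorm _ _).trans (mul_le_mul_of_nonneg_right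
          ((S.forward n).trans (mul_le_of_le_one_right S.C_nonneg
            (pow_le_one₀ S.r_nonneg S.r_lt_one.le))) (norm_nonneg ξ))
      · exact ((S.solve shift (extend a)).norm_coe_le_norm _).trans ((S.norm_solve_le _ _).trans
          (mul_le_mul_of_nonneg_left (norm_extend_le a) S.bound_nonneg))

omit [CompleteSpace E] in
theorem norm_forwardSol_le (ξ : E) (a : ℕ →ᵇ E) :
    ‖forwardSol S ξ a‖ ≤ S.C * ‖ξ‖ + S.bound * ‖a‖ :=
  BoundedContinuousFunction.norm_ofNormedAddCommGroup_le _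
    (add_nonneg (mul_nonneg S.C_nonneg (norm_nonneg _))
      (mul_nonneg S.bound_nonneg (norm_nonneg _))) _

theorem forwardSol_succ (ξ : E) (a : ℕ →ᵇ E) (n : ℕ) :
    forwardSol S ξ a (n + 1) = L (forwardSol S ξ a n) + a n := by
  show ((L : E →L[ℝ] E) ^ (n + 1) * S.P) ξ + S.solve shift (extend a) ((n + 1 : ℕ) : ℤ) =
    L (((L : E →L[ℝ] E) ^ n * S.P) ξ + S.solve shift (extend a) (n : ℤ)) + a n
  rw [show ((n + 1 : ℕ) : ℤ) = shift (n : ℤ) from Int.natCast_succ n, S.solve_eq,
    _root_.map_add, pow_succ', show extend a (n : ℤ) = a n by simp [extend]]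
  exact (add_assoc _ _ _).symm

theorem apply_solve_zero (hP : ∀ x, S.P (S.P x) = S.P x) (a : ℕ →ᵇ E) :
    S.P (S.solve shift (extend a) 0) = 0 := by
  have hp : Summable (S.pos shift (extend a)) :=
    .of_norm_bounded (S.hasSum_bound _).summable (S.norm_pos_le _ _)
  have hn : Summable (S.neg shift (extend a)) :=
    .of_norm_bounded (S.hasSum_bound _).summable (S.norm_neg_le _ _)
  have hneg : ∀ n : ℕ, shift.symm^[n + 1] 0 = -((n : ℤ) + 1) := fun n => by
    induction n with
    | zero => simp [shift_symm_apply]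
    | succ n ih =>
      rw [Function.iterate_succ_apply', ih, shift_symm_apply]
      push_cast
      ring
  have h1 : ∀ n, S.P (S.pos shift (extend a) n 0) = 0 := fun n => by
    show S.P (((L : E →L[ℝ] E) ^ n * S.P) (extend a (shift.symm^[n + 1] 0))) = 0
    rw [hneg, extend_neg, _root_.map_zero, _root_.map_zero]
  have h2 : ∀ n, S.P (S.neg shift (extend a) n 0) = 0 := fun n => by
    show S.P (((L.symm : E →L[ℝ] E) ^ (n + 1))
      (extend a (shift^[n] 0) - S.P (extend a (shift^[n] 0)))) = 0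
    rw [comm_symm_pow, _root_.map_sub S.P, hP, sub_self, _root_.map_zero]
  have e1 := S.P.hasSum (Splitting.hasSum_apply hp.hasSum (0 : ℤ))
  have e2 := S.P.hasSum (Splitting.hasSum_apply hn.hasSum (0 : ℤ))
  simp only [h1] at e1
  simp only [h2] at e2
  rw [Splitting.solve, BoundedContinuousFunction.coe_sub, Pi.sub_apply, _root_.map_sub,
    e1.unique hasSum_zero, e2.unique hasSum_zero, sub_zero]

theorem forwardSol_zero (hP : ∀ x, S.P (S.P x) = S.P x) (ξ : E) (a : ℕ →ᵇ E) :
    S.P (forwardSol S ξ a 0) = S.P ξ := by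
  show S.P (((L : E →L[ℝ] E) ^ 0 * S.P) ξ + S.solve shift (extend a) 0) = _
  rw [_root_.map_add, apply_solve_zero S hP, add_zero, pow_zero, one_mul, hP]

theorem eq_forwardSol (hP : ∀ x, S.P (S.P x) = S.P x) {u a : ℕ →ᵇ E}
    (hu : ∀ n, u (n + 1) = L (u n) + a n) :
    u = forwardSol S (S.P (u 0)) a := by
  set w := u - forwardSol S (S.P (u 0)) a
  have hw : ∀ n, w (n + 1) = L (w n) := fun n => by
    simp only [w, BoundedContinuousFunction.coe_sub, Pi.sub_apply, hu, forwardSol_succ,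
      _root_.map_sub]
    abel
  have hw0 : S.P (w 0) = 0 := by
    simp only [w, BoundedContinuousFunction.coe_sub, Pi.sub_apply, _root_.map_sub,
      forwardSol_zero S hP, hP, sub_self]
  have hpow : ∀ n, w n = ((L : E →L[ℝ] E) ^ n) (w 0) := fun n => by
    induction n with
    | zero => rfl
    | succ n ih =>
      rw [hw, ih, pow_succ']
      rfl
  have hb : ∀ n, ‖w 0‖ ≤ S.C * S.r ^ n * ‖w‖ := fun n => by
    have e : w 0 = ((L.symm : E →L[ℝ] E) ^ n * (1 - S.P)) (w n) := by
      show _ = ((L.symm : E →L[ℝ] E) ^ n) (w n - S.P (w n))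
      rw [hpow n, S.comm_pow, hw0, _root_.map_zero ((L : E →L[ℝ] E) ^ n), sub_zero,
        Splitting.pow_symm_pow]
    rw [e]
    exact (ContinuousLinearMap.le_opNorm _ _).trans (mul_le_mul (S.backward n)
      (w.norm_coe_le_norm _) (norm_nonneg _) (mul_nonneg S.C_nonneg (pow_nonneg S.r_nonneg n)))
  have h0 : w 0 = 0 := norm_le_zero_iff.1 (ge_of_tendsto'
    (by simpa using ((tendsto_pow_atTop_nhds_zero_of_lt_one S.r_nonneg S.r_lt_one).const_mul
      S.C).mul_const ‖w‖) hb)
  refine sub_eq_zero.1 (BoundedContinuousFunction.ext fun n => ?_)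
  show w n = 0
  rw [hpow n, h0, _root_.map_zero]

/-- The sequence `h n (u n)`. -/
def nonlin (h : ℕ → E → E) (ε : ℝ≥0) (hh : ∀ n, LipschitzWith ε (h n)) (h0 : ∀ n, h n 0 = 0)
    (u : ℕ →ᵇ E) : ℕ →ᵇ E :=
  BoundedContinuousFunction.ofNormedAddCommGroup (fun n => h n (u n))
    continuous_of_discreteTopology (ε * ‖u‖) fun n => by
      have := (hh n).norm_sub_le (u n) 0
      rw [h0, sub_zero, sub_zero] at this
      exact this.trans (mul_le_mul_of_nonneg_left (u.norm_coe_le_norm n) ε.coe_nonneg)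

omit [NormedSpace ℝ E] [CompleteSpace E] in
theorem norm_nonlin_sub (h : ℕ → E → E) (ε : ℝ≥0) (hh : ∀ n, LipschitzWith ε (h n))
    (h0 : ∀ n, h n 0 = 0) (u u' : ℕ →ᵇ E) :
    ‖nonlin h ε hh h0 u - nonlin h ε hh h0 u'‖ ≤ ε * ‖u - u'‖ :=
  (BoundedContinuousFunction.norm_le (by positivity)).2 fun n => ((hh n).norm_sub_le _ _).trans
    (mul_le_mul_of_nonneg_left ((u - u').norm_coe_le_norm n) ε.coe_nonneg)

variable {h : ℕ → E → E} {ε : ℝ≥0} (hh : ∀ n, LipschitzWith ε (h n)) (h0 : ∀ n, h n 0 = 0)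

include hh h0 in
/-- **Existence of bounded orbits over the contracted part.** -/
theorem exists_orbit (hP : ∀ x, S.P (S.P x) = S.P x) (hε : S.bound * ε < 1) (ξ : E) :
    ∃ u : ℕ →ᵇ E, S.P (u 0) = S.P ξ ∧ ∀ n, u (n + 1) = L (u n) + h n (u n) := by
  set T : (ℕ →ᵇ E) → ℕ →ᵇ E := fun u => forwardSol S ξ (nonlin h ε hh h0 u)
  have hT : ContractingWith (Real.toNNReal (S.bound * ε)) T := by
    refine ⟨Real.toNNReal_lt_one.2 hε, LipschitzWith.of_dist_le_mul fun u u' => ?_⟩
    rw [Real.coe_toNNReal _ (mul_nonneg S.bound_nonneg ε.coe_nonneg), dist_eq_norm, dist_eq_norm,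
      mul_assoc]
    have e : T u - T u' = forwardSol S 0 (nonlin h ε hh h0 u - nonlin h ε hh h0 u') := by
      have e' : ∀ n, (T u - T u') (n + 1) = L ((T u - T u') n) +
          (nonlin h ε hh h0 u - nonlin h ε hh h0 u') n := fun n => by
        simp only [T, BoundedContinuousFunction.coe_sub, Pi.sub_apply, forwardSol_succ,
          _root_.map_sub]
        abel
      rw [eq_forwardSol S hP e']
      congr 1
      simp only [T, BoundedContinuousFunction.coe_sub, Pi.sub_apply, _root_.map_sub,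
        forwardSol_zero S hP, sub_self]
    rw [e]
    refine (norm_forwardSol_le S 0 _).trans ?_
    rw [norm_zero, mul_zero, zero_add]
    exact mul_le_mul_of_nonneg_left (norm_nonlin_sub h ε hh h0 u u') S.bound_nonneg
  set u := ContractingWith.fixedPoint T hT
  have hu : T u = u := hT.fixedPoint_isFixedPt
  refine ⟨u, ?_, fun n => ?_⟩
  · rw [← hu]
    exact forwardSol_zero S hP ξ _
  · conv_lhs => rw [← hu]
    rw [forwardSol_succ, show forwardSol S ξ (nonlin h ε hh h0 u) = u from hu]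
    rfl

include hh h0 in
/-- **Bounded orbits are determined by their contracted part.** -/
theorem norm_orbit_sub (hP : ∀ x, S.P (S.P x) = S.P x) (hε : S.bound * ε ≤ 1 / 2) {u u' : ℕ →ᵇ E}
    (hu : ∀ n, u (n + 1) = L (u n) + h n (u n)) (hu' : ∀ n, u' (n + 1) = L (u' n) + h n (u' n)) :
    ‖u - u'‖ ≤ 2 * S.C * ‖S.P (u 0 - u' 0)‖ ∧
      ‖(u 0 - u' 0) - S.P (u 0 - u' 0)‖ ≤ 2 * S.C * S.bound * ε * ‖S.P (u 0 - u' 0)‖ := by
  set d := nonlin h ε hh h0 u - nonlin h ε hh h0 u'
  have hd : ∀ n, (u - u') (n + 1) = L ((u - u') n) + d n := fun n => by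
    show u (n + 1) - u' (n + 1) = L (u n - u' n) + (h n (u n) - h n (u' n))
    rw [hu, hu', _root_.map_sub]
    abel
  have e := eq_forwardSol S hP hd
  have hdn : ‖d‖ ≤ ε * ‖u - u'‖ := norm_nonlin_sub h ε hh h0 u u'
  have h1 : ‖u - u'‖ ≤ 2 * S.C * ‖S.P (u 0 - u' 0)‖ := by
    have h2 := (congrArg norm e).le.trans ((norm_forwardSol_le S _ d).trans
      (add_le_add le_rfl (mul_le_mul_of_nonneg_left hdn S.bound_nonneg)))
    have h3 := mul_le_mul_of_nonneg_right hε (norm_nonneg (u - u'))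
    rw [BoundedContinuousFunction.coe_sub, Pi.sub_apply] at h2
    linarith
  refine ⟨h1, ?_⟩
  have e0 : u 0 - u' 0 = S.P (u 0 - u' 0) + S.solve shift (extend d) 0 := by
    have := DFunLike.congr_fun e 0
    rw [BoundedContinuousFunction.coe_sub, Pi.sub_apply] at this
    refine this.trans ?_
    show ((L : E →L[ℝ] E) ^ 0 * S.P) (S.P (u 0 - u' 0)) + S.solve shift (extend d) 0 = _
    rw [pow_zero, one_mul, hP]
  nth_rw 1 [e0]
  rw [add_sub_cancel_left]
  refine ((S.solve shift (extend d)).norm_coe_le_norm 0).trans ((S.norm_solve_le _ _).trans ?_)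
  refine (mul_le_mul_of_nonneg_left ((norm_extend_le d).trans hdn) S.bound_nonneg).trans ?_
  have := mul_le_mul_of_nonneg_left h1 (mul_nonneg S.bound_nonneg ε.coe_nonneg)
  linarith

omit [CompleteSpace E] in
/-- The rescaled map with its splitting. -/
theorem exists_scaled {lam : ℝ} (hr : S.r < lam) (hlam : lam ≤ 1) :
    ∃ (L' : E ≃L[ℝ] E) (S' : Splitting L'), S'.P = S.P ∧ ∀ x, L' x = lam⁻¹ • L x := by
  have h0 : 0 < lam := S.r_nonneg.trans_lt hr
  let L' : E ≃L[ℝ] E := ContinuousLinearEquiv.equivOfInverse (lam⁻¹ • (L : E →L[ℝ] E))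
    (lam • (L.symm : E →L[ℝ] E)) (fun x => by simp [smul_smul, h0.ne']) fun x => by
      simp [smul_smul, h0.ne']
  have e1 : (L' : E →L[ℝ] E) = lam⁻¹ • (L : E →L[ℝ] E) := rfl
  have e2 : (L'.symm : E →L[ℝ] E) = lam • (L.symm : E →L[ℝ] E) := rfl
  refine ⟨L', { P := S.P, C := S.C, r := S.r / lam, C_nonneg := S.C_nonneg,
                r_nonneg := div_nonneg S.r_nonneg h0.le, r_lt_one := (div_lt_one h0).2 hr,
                comm := fun x => ?_, forward := fun n => ?_, backward := fun n => ?_ },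
    rfl, fun x => rfl⟩
  · show S.P (lam⁻¹ • L x) = lam⁻¹ • L (S.P x)
    rw [_root_.map_smul, S.comm]
  · rw [e1, smul_pow, smul_mul_assoc, norm_smul, Real.norm_of_nonneg (by positivity), div_pow,
      inv_pow]
    refine (mul_le_mul_of_nonneg_left (S.forward n) (by positivity)).trans_eq ?_
    ring
  · rw [e2, smul_pow, smul_mul_assoc, norm_smul, Real.norm_of_nonneg (by positivity)]
    refine (mul_le_mul (pow_le_one₀ h0.le hlam) (S.backward n) (norm_nonneg _) zero_le_one).trans
      ?_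
    rw [one_mul]
    exact mul_le_mul_of_nonneg_left (pow_le_pow_left₀ S.r_nonneg
      ((le_div_iff₀ h0).2 (mul_le_of_le_one_right S.r_nonneg hlam)) n) S.C_nonneg

end FA.StableManifold
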