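import Fermat.Agent.StableManifold.Forward

/-!
# The stable manifold theorem

Near a hyperbolic fixed point the points with forward orbit staying near it form the graph of a
Lipschitz map over the contracted part, tangent to it, and their orbits converge exponentially.
-/

set_option autoImplicit false

noncomputable section

namespace FA.StableManifold

open FA.HartmanGrobman Filter Topology
open scoped BoundedContinuousFunction NNReal

variable {E : Type*} [NormedAddCommGroup E] [NormedSpace ℝ E] {L : E ≃L[ℝ] E}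

/-- The error term cut off outside the ball of radius `δ`. -/
def cutoff (L : E ≃L[ℝ] E) (f : E → E) (p : E) (δ : ℝ) (y : E) : E :=
  f (p + retract δ y) - p - L (retract δ y)

theorem cutoff_eq {f : E → E} {p : E} {δ : ℝ} (hδ : 0 < δ) {y : E} (hy : ‖y‖ ≤ δ) :
    cutoff L f p δ y = f (p + y) - p - L y := by
  rw [cutoff, retract_eq hδ hy]

theorem cutoff_zero {f : E → E} {p : E} (hf : f p = p) (δ : ℝ) : cutoff L f p δ 0 = 0 := by
  simp [cutoff, retract, hf]

variable [CompleteSpace E]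

omit [CompleteSpace E] in
theorem exists_cutoff {f : E → E} {p : E} (hd : HasStrictFDerivAt f (L : E →L[ℝ] E) p) {ε : ℝ≥0}
    (hε : 0 < ε) : ∃ δ : ℝ, 0 < δ ∧ LipschitzWith ε (cutoff L f p δ) := by
  obtain ⟨s, hs, happ⟩ := hd.approximates_deriv_on_nhds (c := ε / 2) (Or.inr (by positivity))
  obtain ⟨δ, hδ, hδs⟩ := (Metric.nhds_basis_closedBall (x := p)).mem_iff.1 hs
  refine ⟨δ, hδ, LipschitzWith.of_dist_le_mul fun y z => ?_⟩
  have hmem : ∀ y, p + retract δ y ∈ s := fun y =>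
    hδs (by rw [mem_closedBall_iff_norm, add_sub_cancel_left]; exact norm_retract_le hδ y)
  rw [dist_eq_norm, dist_eq_norm]
  have h1 := happ _ (hmem y) _ (hmem z)
  rw [add_sub_add_left_eq_sub, _root_.map_sub] at h1
  rw [show cutoff L f p δ y - cutoff L f p δ z = f (p + retract δ y) - f (p + retract δ z) -
    (L (retract δ y) - L (retract δ z)) by simp only [cutoff]; abel]
  refine h1.trans ?_
  have h2 := (lipschitz_retract hδ).norm_sub_le y z
  rw [NNReal.coe_div]
  have h3 := mul_le_mul_of_nonneg_left h2 ε.coe_nonneg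
  push_cast at h3 ⊢
  linarith

omit [CompleteSpace E] in
theorem iterate_orbit {f : E → E} {p : E} {δ : ℝ} (hδ : 0 < δ) {u : ℕ → E}
    (hu : ∀ n, u (n + 1) = L (u n) + cutoff L f p δ (u n)) (hb : ∀ n, ‖u n‖ ≤ δ) (n : ℕ) :
    f^[n] (p + u 0) = p + u n := by
  induction n with
  | zero => rfl
  | succ n ih =>
    rw [Function.iterate_succ_apply', ih, hu, cutoff_eq hδ (hb n)]
    abel

/-- **The stable manifold theorem.** -/
theorem stable_manifold (S : Splitting L) {f : E → E} {p : E}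
    (hf : f p = p) (hd : HasStrictFDerivAt f (L : E →L[ℝ] E) p) :
    ∃ (δ η lam K : ℝ) (φ : E → E), 0 < δ ∧ 0 < η ∧ 0 < lam ∧ lam < 1 ∧
      (∃ c, LipschitzWith c φ) ∧ φ 0 = 0 ∧ (∀ ξ, S.P (φ ξ) = 0) ∧
      HasFDerivAt φ (0 : E →L[ℝ] E) 0 ∧
      (∀ x, ‖S.P x‖ ≤ η → ((∀ n, ‖f^[n] (p + x) - p‖ ≤ δ) ↔ x = S.P x + φ (S.P x))) ∧
      ∀ x, (∀ n, ‖f^[n] (p + x) - p‖ ≤ δ) → ∀ n, ‖f^[n] (p + x) - p‖ ≤ K * lam ^ n * ‖x‖ := by
  have hP := idem S
  set lam := (S.r + 1) / 2
  have hr1 : S.r < lam := by have := S.r_lt_one; simp only [lam]; linarith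
  have hlam1 : lam < 1 := by have := S.r_lt_one; simp only [lam]; linarith
  have hlam0 : 0 < lam := S.r_nonneg.trans_lt hr1
  obtain ⟨L', S', hS'P, hL'⟩ := exists_scaled S hr1 hlam1.le
  have hP' : ∀ x, S'.P (S'.P x) = S'.P x := by rw [hS'P]; exact hP
  obtain ⟨ε, hε, -, hb⟩ := exists_small 0
    (b := 2 * (S.bound + S'.bound / lam)) (by
      have := S.bound_nonneg
      have := S'.bound_nonneg
      positivity)
  have hbS : S.bound * ε ≤ 1 / 2 := by
    have := mul_nonneg (div_nonneg S'.bound_nonneg hlam0.le) ε.coe_nonneg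
    linarith
  set ε' : ℝ≥0 := Real.toNNReal lam⁻¹ * ε
  have hε' : (ε' : ℝ) = lam⁻¹ * ε := by
    rw [NNReal.coe_mul, Real.coe_toNNReal _ (inv_nonneg.2 hlam0.le)]
  have hbS' : S'.bound * ε' ≤ 1 / 2 := by
    have := mul_nonneg S.bound_nonneg ε.coe_nonneg
    rw [hε', ← mul_assoc, ← div_eq_mul_inv]
    linarith
  obtain ⟨δ, hδ, hlip⟩ := exists_cutoff hd hε
  set g := cutoff L f p δ
  have hg0 : g 0 = 0 := cutoff_zero hf δ
  set h' : ℕ → E → E := fun n v => lam⁻¹ ^ (n + 1) • g (lam ^ n • v)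
  have hh' : ∀ n, LipschitzWith ε' (h' n) := fun n => LipschitzWith.of_dist_le_mul fun v w => by
    rw [dist_eq_norm, dist_eq_norm, hε', ← smul_sub, norm_smul,
      Real.norm_of_nonneg (by positivity)]
    refine (mul_le_mul_of_nonneg_left (hlip.norm_sub_le _ _) (by positivity)).trans_eq ?_
    rw [← smul_sub, norm_smul, Real.norm_of_nonneg (by positivity), inv_pow]
    field_simp
    ring
  have h0' : ∀ n, h' n 0 = 0 := fun n => by simp [h', hg0]
  choose v hv0 hv using fun ξ => exists_orbit S' hh' h0' hP' (by linarith) ξ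
  have hzero : ∀ n, (0 : ℕ →ᵇ E) (n + 1) = L' ((0 : ℕ →ᵇ E) n) + h' n ((0 : ℕ →ᵇ E) n) := by
    intro n
    simp [h0']
  -- the orbits of the unscaled problem
  set K := 2 * S'.C
  have hvK : ∀ ξ, ‖v ξ‖ ≤ K * ‖S.P ξ‖ := fun ξ => by
    have := (norm_orbit_sub S' hh' h0' hP' hbS' (hv ξ) hzero).1
    rwa [sub_zero, BoundedContinuousFunction.coe_zero, Pi.zero_apply, sub_zero, hv0, hS'P]
      at this
  set u : E → ℕ →ᵇ E := fun ξ => BoundedContinuousFunction.ofNormedAddCommGroup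
    (fun n => lam ^ n • v ξ n) continuous_of_discreteTopology ‖v ξ‖ fun n => by
      rw [norm_smul, Real.norm_of_nonneg (by positivity)]
      exact (mul_le_of_le_one_left (norm_nonneg _) (pow_le_one₀ hlam0.le hlam1.le)).trans
        ((v ξ).norm_coe_le_norm n)
  have hu : ∀ ξ n, u ξ (n + 1) = L (u ξ n) + g (u ξ n) := fun ξ n => by
    show lam ^ (n + 1) • v ξ (n + 1) = L (lam ^ n • v ξ n) + g (lam ^ n • v ξ n)
    rw [hv, hL', smul_add, smul_smul, smul_smul, ← mul_pow,
      mul_inv_cancel₀ hlam0.ne', one_pow, one_smul, pow_succ, mul_assoc,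
      mul_inv_cancel₀ hlam0.ne', mul_one, _root_.map_smul]
  have hu0 : ∀ ξ, u ξ 0 = v ξ 0 := fun ξ => by simp [u]
  have hun : ∀ ξ n, ‖u ξ n‖ ≤ K * lam ^ n * ‖S.P ξ‖ := fun ξ n => by
    show ‖lam ^ n • v ξ n‖ ≤ _
    rw [norm_smul, Real.norm_of_nonneg (by positivity), mul_comm K, mul_assoc]
    exact mul_le_mul_of_nonneg_left (((v ξ).norm_coe_le_norm n).trans (hvK ξ)) (by positivity)
  -- a bounded orbit is one of them
  have key : ∀ x, (∀ n, ‖f^[n] (p + x) - p‖ ≤ δ) →
      x = u x 0 ∧ ∀ n, f^[n] (p + x) - p = u x n := by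
    intro x hx
    set w : ℕ →ᵇ E := BoundedContinuousFunction.ofNormedAddCommGroup
      (fun n => f^[n] (p + x) - p) continuous_of_discreteTopology δ hx
    have hw : ∀ n, w (n + 1) = L (w n) + g (w n) := fun n => by
      show f^[n + 1] (p + x) - p = L (f^[n] (p + x) - p) + g (f^[n] (p + x) - p)
      simp only [g]
      rw [cutoff_eq hδ (hx n), Function.iterate_succ_apply', add_sub_cancel]
      abel_nf
    have h1 := (norm_orbit_sub S (fun _ => hlip) (fun _ => hg0) hP hbS hw (hu x)).1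
    have hw0 : w 0 = x := add_sub_cancel_left p x
    rw [hu0, hw0, _root_.map_sub, ← hS'P, hv0, sub_self, norm_zero, mul_zero] at h1
    have e : w = u x := sub_eq_zero.1 (norm_le_zero_iff.1 h1)
    exact ⟨hw0.symm.trans (DFunLike.congr_fun e 0), fun n => DFunLike.congr_fun e n⟩
  set φ : E → E := fun ξ => v ξ 0 - S.P (v ξ 0)
  have hPv : ∀ ξ, S.P (v ξ 0) = S.P ξ := fun ξ => by rw [← hS'P, hv0]
  have hvP : ∀ x, v (S.P x) = v x := fun x => by
    have h1 := (norm_orbit_sub S' hh' h0' hP' hbS' (hv (S.P x)) (hv x)).1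
    rw [_root_.map_sub, hv0, hv0, hS'P, hP, sub_self, norm_zero, mul_zero] at h1
    exact sub_eq_zero.1 (norm_le_zero_iff.1 h1)
  have hgraph : ∀ x, S.P x + φ (S.P x) = u x 0 := fun x => by
    simp only [φ, hvP, hPv, hu0, hP]
    abel
  have hφ0 : φ 0 = 0 := by
    have : v 0 0 = 0 := norm_le_zero_iff.1 (((v 0).norm_coe_le_norm 0).trans
      ((hvK 0).trans_eq (by simp)))
    simp [φ, this]
  set η := δ / (K + 1)
  have hK : 0 ≤ K := mul_nonneg zero_le_two S'.C_nonneg
  refine ⟨δ, η, lam, K * ‖S.P‖, φ, hδ, by positivity, hlam0, hlam1, ?_, hφ0,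
    fun ξ => by simp only [φ, _root_.map_sub, hP, sub_self], ?_,
    fun x hx => ⟨fun h => ?_, fun h => ?_⟩,
    fun x hx n => ?_⟩
  · refine ⟨Real.toNNReal (2 * S'.C * S'.bound * ε' * ‖S.P‖),
      LipschitzWith.of_dist_le_mul fun ξ ζ => ?_⟩
    have h1 := (norm_orbit_sub S' hh' h0' hP' hbS' (hv ξ) (hv ζ)).2
    rw [hS'P, _root_.map_sub, hPv, hPv, ← _root_.map_sub] at h1
    rw [dist_eq_norm, dist_eq_norm]
    have h2 : 0 ≤ 2 * S'.C * S'.bound * ε' :=
      mul_nonneg (mul_nonneg (mul_nonneg zero_le_two S'.C_nonneg) S'.bound_nonneg) ε'.coe_nonneg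
    rw [Real.coe_toNNReal _ (mul_nonneg h2 (norm_nonneg _)), mul_assoc]
    refine le_of_eq_of_le ?_ (h1.trans (mul_le_mul_of_nonneg_left (S.P.le_opNorm _) h2))
    congr 1
    simp only [φ, _root_.map_sub, hPv]
    abel
  · rw [hasFDerivAt_iff_isLittleO_nhds_zero]
    simp only [zero_add, hφ0, sub_zero, zero_apply]
    refine Asymptotics.isLittleO_iff.2 fun c hc => ?_
    -- a smaller cutoff
    set B := 2 * S.C * S.bound * ‖S.P‖ + 1
    have hB : 0 < B := by
      have := mul_nonneg (mul_nonneg (mul_nonneg zero_le_two S.C_nonneg) S.bound_nonneg)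
        (norm_nonneg S.P)
      linarith
    set ε₁ : ℝ≥0 := min ε (Real.toNNReal (c / B))
    have hε₁ : 0 < ε₁ := lt_min hε (Real.toNNReal_pos.2 (by positivity))
    have hbS₁ : S.bound * ε₁ ≤ 1 / 2 :=
      (mul_le_mul_of_nonneg_left (NNReal.coe_le_coe.2 (min_le_left _ _)) S.bound_nonneg).trans hbS
    obtain ⟨δ₁, hδ₁, hlip₁⟩ := exists_cutoff hd hε₁
    have hρ : 0 < min δ δ₁ / (K * ‖S.P‖ + 1) := div_pos (lt_min hδ hδ₁) (by positivity)
    filter_upwards [Metric.ball_mem_nhds (0 : E) hρ] with ξ hξ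
    rw [mem_ball_zero_iff, lt_div_iff₀ (by positivity)] at hξ
    have hsmall : ∀ n, ‖u ξ n‖ ≤ min δ δ₁ := fun n => by
      refine (hun ξ n).trans ?_
      have h1 : K * lam ^ n * ‖S.P ξ‖ ≤ K * (‖S.P‖ * ‖ξ‖) :=
        mul_le_mul (mul_le_of_le_one_right hK (pow_le_one₀ hlam0.le hlam1.le))
          (S.P.le_opNorm ξ) (norm_nonneg _) hK
      linarith [norm_nonneg ξ]
    have hu₁ : ∀ n, u ξ (n + 1) = L (u ξ n) + cutoff L f p δ₁ (u ξ n) := fun n => by
      rw [hu]
      simp only [g]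
      rw [cutoff_eq hδ ((hsmall n).trans (min_le_left _ _)),
        cutoff_eq hδ₁ ((hsmall n).trans (min_le_right _ _))]
    have hzero₁ : ∀ n, (0 : ℕ →ᵇ E) (n + 1) =
        L ((0 : ℕ →ᵇ E) n) + cutoff L f p δ₁ ((0 : ℕ →ᵇ E) n) := fun n => by
      simp [cutoff_zero hf]
    have h1 := (norm_orbit_sub S (fun _ => hlip₁) (fun _ => cutoff_zero hf δ₁) hP hbS₁ hu₁
      hzero₁).2
    rw [BoundedContinuousFunction.coe_zero, Pi.zero_apply, sub_zero, hu0, hPv] at h1
    refine le_trans (le_of_eq_of_le ?_ h1) ?_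
    · simp only [φ, hPv]
    have h2 : (ε₁ : ℝ) ≤ c / B := (NNReal.coe_le_coe.2 (min_le_right _ _)).trans_eq
      (Real.coe_toNNReal _ (by positivity))
    rw [le_div_iff₀ hB] at h2
    have h3 := mul_le_mul_of_nonneg_left (S.P.le_opNorm ξ)
      (mul_nonneg (mul_nonneg (mul_nonneg zero_le_two S.C_nonneg) S.bound_nonneg) ε₁.coe_nonneg)
    have h4 := mul_le_mul_of_nonneg_right h2 (norm_nonneg ξ)
    have h5 := mul_nonneg ε₁.coe_nonneg (norm_nonneg ξ)
    linarith
  · rw [hgraph]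
    exact (key x h).1
  · intro n
    have hsmall : ∀ m, ‖u x m‖ ≤ δ := fun m => by
      refine (hun x m).trans ?_
      have h1 := mul_le_mul (mul_le_of_le_one_right hK (pow_le_one₀ hlam0.le hlam1.le (n := m)))
        hx (norm_nonneg _) hK
      refine h1.trans ?_
      rw [show K * η = δ * (K / (K + 1)) by ring]
      exact mul_le_of_le_one_right hδ.le ((div_le_one (by positivity)).2 (by linarith))
    rw [h, hgraph, iterate_orbit hδ (hu x) hsmall n, add_sub_cancel_left]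
    exact hsmall n
  · rw [(key x hx).2 n]
    refine (hun x n).trans ((mul_le_mul_of_nonneg_left (S.P.le_opNorm x) (by positivity)).trans_eq
      (by ring))

end FA.StableManifold
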